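import Mathlib
import Fermat.Prelude.Def_CuspForm_HeckeAlgebra
import Fermat.Prelude.Def_CuspForm_IntegralStructure
import Fermat.Prelude.Def_ModularCurve_PeriodHomPair

/-!
# S23 interface: targets (see `NOTES/plan/S23.md`)

S23 = `HasIntegralStructure N 2`.  Route: Hecke duality `(T, f) ↦ a₁(T f)` + `rank_ℤ 𝕋 = dim S₂`
(from Eichler–Shimura S21 and the Hecke stable lattice of integral parabolic homomorphisms).
-/

set_option autoImplicit false

namespace FA_S23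

open CongruenceSubgroup

/-- **A** (pure linear algebra): the duality argument. -/
def FA_S23_Target_Duality : Prop :=
  ∀ (V : Type) [AddCommGroup V] [Module ℂ V] [FiniteDimensional ℂ V]
    (𝕋 : Subalgebra ℤ (Module.End ℂ V)),
    (∀ a ∈ 𝕋, ∀ b ∈ 𝕋, Commute a b) →
    Module.Finite ℤ 𝕋 →
    ∀ (lam : V →ₗ[ℂ] ℂ),
    (∀ f : V, (∀ T ∈ 𝕋, lam (T f) = 0) → f = 0) →
    (∀ (m : ℕ) (t : Fin m → Module.End ℂ V), (∀ i, t i ∈ 𝕋) → ∀ c : Fin m → ℂ,
        ∑ i, c i • t i = 0 → ∀ φ : ℂ →ₗ[ℚ] ℚ, ∑ i, ((φ (c i) : ℚ) : ℂ) • t i = 0) →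
    Submodule.span ℂ {f : V | ∀ T ∈ 𝕋, ∃ n : ℤ, lam (T f) = n} = ⊤

/-- **B1**: the `n`-th coefficient is the first coefficient of `T_n f` for some `T_n ∈ 𝕋`. -/
def FA_S23_Target_Coeff : Prop :=
  ∀ (N : ℕ) [NeZero N] (n : ℕ), 1 ≤ n → ∃ T ∈ CuspForm.heckeAlgebra N 2 ∅,
    ∀ f : CuspForm (Gamma0 N) 2,
      ModularFormClass.qCoeff (T f) 1 = ModularFormClass.qCoeff f n

/-- **B2**: the first coefficient is a linear functional; a cusp form with vanishing coefficients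
`a_n`, `n ≥ 1`, vanishes; `a₀ = 0`. -/
def FA_S23_Target_CoeffLinear : Prop :=
  ∀ (N : ℕ) [NeZero N],
    (∃ lam : CuspForm (Gamma0 N) 2 →ₗ[ℂ] ℂ, ∀ f, lam f = ModularFormClass.qCoeff f 1) ∧
    (∀ f : CuspForm (Gamma0 N) 2, ModularFormClass.qCoeff f 0 = 0) ∧
    (∀ f : CuspForm (Gamma0 N) 2, (∀ n, 1 ≤ n → ModularFormClass.qCoeff f n = 0) → f = 0)

/-- the statement of S21 -/
def FA_S23_S21 (N : ℕ) [NeZero N] : Prop :=
  Function.Injective (ModularCurve.periodHomPair N)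
    ∧ LinearMap.range (ModularCurve.periodHomPair N)
        = ModularCurve.Period.parabolicHoms ℂ (Gamma0 N) ℂ

/-- **C** (Eichler–Shimura + Hecke stable lattice): a `ℂ`-linear relation between Hecke operators
implies the `ℚ`-linear relations obtained by applying `ℚ`-linear functionals to the
coefficients. -/
def FA_S23_Target_Indep : Prop :=
  ∀ (N : ℕ) [NeZero N], FA_S23_S21 N →
    ∀ (m : ℕ) (t : Fin m → Module.End ℂ (CuspForm (Gamma0 N) 2)),
      (∀ i, t i ∈ CuspForm.heckeAlgebra N 2 ∅) → ∀ c : Fin m → ℂ,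
        ∑ i, c i • t i = 0 → ∀ φ : ℂ →ₗ[ℚ] ℚ, ∑ i, ((φ (c i) : ℚ) : ℂ) • t i = 0

end FA_S23
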