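import Mathlib
import Fermat.Agent.S23.Interface
import Fermat.Prelude.Thm_CongruenceSubgroup_one_mem_strictPeriods_Gamma0

/-!
# S23 B2: the first coefficient is linear; `a₀ = 0`; a cusp form is determined by its coefficients
-/

set_option autoImplicit false

namespace FA_S23

open CongruenceSubgroup UpperHalfPlane ModularFormClass

theorem FA_S23_CoeffLinear_analytic (N : ℕ) [NeZero N] (f : CuspForm (Gamma0 N) 2) :
    AnalyticAt ℂ (cuspFunction 1 f) 0 :=
  ModularFormClass.analyticAt_cuspFunction_zero f one_pos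
    (CongruenceSubgroup.one_mem_strictPeriods_Gamma0 N)

theorem FA_S23_qCoeff_add (N : ℕ) [NeZero N] (f g : CuspForm (Gamma0 N) 2) (n : ℕ) :
    qCoeff (f + g) n = qCoeff f n + qCoeff g n := by
  unfold qCoeff
  rw [qExpansion_add (FA_S23_CoeffLinear_analytic N f)
    (FA_S23_CoeffLinear_analytic N g), map_add]

theorem FA_S23_qCoeff_smul (N : ℕ) [NeZero N] (c : ℂ) (f : CuspForm (Gamma0 N) 2) (n : ℕ) :
    qCoeff (c • f) n = c * qCoeff f n := by
  unfold qCoeff
  rw [qExpansion_smul (FA_S23_CoeffLinear_analytic N f), PowerSeries.coeff_smul,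
    smul_eq_mul]

theorem FA_S23_qCoeff_zero (N : ℕ) [NeZero N] (f : CuspForm (Gamma0 N) 2) :
    qCoeff f 0 = 0 :=
  CuspFormClass.qExpansion_coeff_zero f one_pos (CongruenceSubgroup.one_mem_strictPeriods_Gamma0 N)

/-- **B2**. -/
theorem FA_S23_coeffLinear : FA_S23_Target_CoeffLinear := by
  intro N _
  refine ⟨⟨{ toFun := fun f => qCoeff f 1
             map_add' := fun f g => FA_S23_qCoeff_add N f g 1
             map_smul' := fun c f => FA_S23_qCoeff_smul N c f 1 }, fun f => rfl⟩,
    FA_S23_qCoeff_zero N, ?_⟩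
  intro f hf
  have hΓ := CongruenceSubgroup.one_mem_strictPeriods_Gamma0 N
  have hall : ∀ n, qCoeff f n = 0 := by
    intro n
    rcases Nat.eq_zero_or_pos n with rfl | hn
    · exact FA_S23_qCoeff_zero N f
    · exact hf n hn
  have hq : qExpansion 1 f = 0 := by
    ext n
    simpa [qCoeff] using hall n
  have : Fact (IsCusp OnePoint.infty (Subgroup.map (Matrix.SpecialLinearGroup.mapGL ℝ) (Gamma0 N))) :=
    ⟨Subgroup.isCusp_of_mem_strictPeriods one_pos hΓ⟩
  have h0 := (qExpansion_eq_zero_iff one_pos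
    (SlashInvariantFormClass.periodic_comp_ofComplex f hΓ) (ModularFormClass.holo f)
    (ModularFormClass.bdd_at_infty f)).mp hq
  exact DFunLike.coe_injective h0

end FA_S23
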