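import Mathlib
import Fermat.Agent.S23.CoeffLinear
import Fermat.Prelude.Thm_ModularFormClass_qCoeff_heckeT
import Fermat.Prelude.Thm_ModularFormClass_qCoeff_heckeU

/-!
# S23 B1: the `n`-th coefficient is the first coefficient of `T_n f` for some `T_n ∈ 𝕋`
-/

set_option autoImplicit false

namespace FA_S23

open CongruenceSubgroup UpperHalfPlane ModularFormClass

theorem FA_S23_qCoeff_heckeU (N : ℕ) [NeZero N] {p : ℕ} (hp : p.Prime) (hpN : p ∣ N)
    (f : CuspForm (Gamma0 N) 2) (n : ℕ) :
    qCoeff (CuspForm.heckeULin 2 hpN f) n = qCoeff f (n * p) := by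
  rw [CuspForm.coe_heckeULin_apply,
    ModularFormClass.qCoeff_heckeU f (CongruenceSubgroup.one_mem_strictPeriods_Gamma0 N)
      hp.ne_zero n]
  rfl

theorem FA_S23_qCoeff_heckeT (N : ℕ) [NeZero N] {p : ℕ} (hp : p.Prime) (hpN : ¬ p ∣ N)
    (f : CuspForm (Gamma0 N) 2) (n : ℕ) :
    qCoeff (CuspForm.heckeTLin 2 hp hpN f) n
      = qCoeff f (n * p) + if p ∣ n then (p : ℂ) * qCoeff f (n / p) else 0 := by
  rw [CuspForm.coe_heckeTLin_apply,
    ModularFormClass.qCoeff_heckeT f (CongruenceSubgroup.one_mem_strictPeriods_Gamma0 N)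
      hp.ne_zero n, ModularForm.coeffHeckeT_apply]
  norm_num

/-- The `n`-th coefficient as a linear functional. -/
noncomputable def FA_S23_coeffLin (N : ℕ) [NeZero N] (n : ℕ) : CuspForm (Gamma0 N) 2 →ₗ[ℂ] ℂ where
  toFun := fun f => qCoeff f n
  map_add' := fun f g => FA_S23_qCoeff_add N f g n
  map_smul' := fun c f => FA_S23_qCoeff_smul N c f n

theorem FA_S23_coeffLin_apply (N : ℕ) [NeZero N] (n : ℕ) (f : CuspForm (Gamma0 N) 2) :
    FA_S23_coeffLin N n f = qCoeff f n := rfl

/-- **B1**. -/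
theorem FA_S23_coeff : FA_S23_Target_Coeff := by
  intro N _ n hn
  induction n using Nat.strong_induction_on with
  | _ n ih =>
    by_cases h1 : n = 1
    · subst h1
      exact ⟨1, Subalgebra.one_mem _, fun f => rfl⟩
    · have hp : n.minFac.Prime := Nat.minFac_prime h1
      have hdvd : n.minFac ∣ n := Nat.minFac_dvd n
      have hm : 1 ≤ n / n.minFac := Nat.div_pos (Nat.le_of_dvd hn hdvd) hp.pos
      have hlt : n / n.minFac < n := Nat.div_lt_self hn hp.one_lt
      have hn' : n / n.minFac * n.minFac = n := Nat.div_mul_cancel hdvd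
      obtain ⟨Tm, hTm, hTm'⟩ := ih _ hlt hm
      by_cases hpN : n.minFac ∣ N
      · refine ⟨Tm * CuspForm.heckeULin 2 hpN, Subalgebra.mul_mem _ hTm
          (CuspForm.heckeULin_mem_heckeAlgebra hp hpN (Set.notMem_empty _)), fun f => ?_⟩
        rw [Module.End.mul_apply, hTm', FA_S23_qCoeff_heckeU N hp hpN, hn']
      · by_cases hpm : n.minFac ∣ n / n.minFac
        · have hm2 : 1 ≤ n / n.minFac / n.minFac :=
            Nat.div_pos (Nat.le_of_dvd hm hpm) hp.pos
          have hlt2 : n / n.minFac / n.minFac < n :=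
            lt_of_le_of_lt (Nat.div_le_self _ _) hlt
          obtain ⟨Tm2, hTm2, hTm2'⟩ := ih _ hlt2 hm2
          refine ⟨Tm * CuspForm.heckeTLin 2 hp hpN - (n.minFac : ℤ) • Tm2,
            Subalgebra.sub_mem _ (Subalgebra.mul_mem _ hTm
              (CuspForm.heckeTLin_mem_heckeAlgebra hp hpN (Set.notMem_empty _)))
              (Subalgebra.zsmul_mem _ hTm2 _), fun f => ?_⟩
          rw [← FA_S23_coeffLin_apply, LinearMap.sub_apply, Module.End.mul_apply,
            LinearMap.smul_apply, map_sub, map_zsmul, FA_S23_coeffLin_apply,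
            FA_S23_coeffLin_apply, hTm', hTm2', FA_S23_qCoeff_heckeT N hp hpN, if_pos hpm, hn']
          simp
        · refine ⟨Tm * CuspForm.heckeTLin 2 hp hpN, Subalgebra.mul_mem _ hTm
            (CuspForm.heckeTLin_mem_heckeAlgebra hp hpN (Set.notMem_empty _)), fun f => ?_⟩
          rw [Module.End.mul_apply, hTm', FA_S23_qCoeff_heckeT N hp hpN, if_neg hpm, hn',
            add_zero]

end FA_S23
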