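import Mathlib
import Fermat.Agent.S23.Interface

/-!
# S23 A: the duality argument (pure linear algebra)
-/

set_option autoImplicit false
set_option linter.style.haveILetI false

namespace FA_S23

open Module

section

variable {V : Type} [AddCommGroup V] [Module ℂ V]

/-- A `ℤ`-linearly independent family of endomorphisms which satisfies the descent property
`hindep` is `ℂ`-linearly independent. -/
theorem FA_S23_Duality_indep {ι : Type} [Fintype ι] (t : ι → Module.End ℂ V)
    (hZ : LinearIndependent ℤ t)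
    (hindep : ∀ c : ι → ℂ, ∑ i, c i • t i = 0 →
      ∀ φ : ℂ →ₗ[ℚ] ℚ, ∑ i, ((φ (c i) : ℚ) : ℂ) • t i = 0) :
    LinearIndependent ℂ t := by
  letI : Module ℚ (Module.End ℂ V) := Module.compHom (Module.End ℂ V) (algebraMap ℚ ℂ)
  have hQ : LinearIndependent ℚ t := hZ.localization ℚ (nonZeroDivisors ℤ)
  rw [Fintype.linearIndependent_iff]
  intro c hc i
  rw [← Module.forall_dual_apply_eq_zero_iff ℚ (c i)]
  intro φ
  have h1 := hindep c hc φ
  have h2 : ∑ j, (φ (c j)) • t j = 0 := by
    rw [← h1]
    refine Finset.sum_congr rfl fun j _ => ?_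
    rfl
  exact Fintype.linearIndependent_iff.mp hQ _ h2 i

end

/-- **A**: the duality argument. -/
theorem FA_S23_duality : FA_S23_Target_Duality := by
  intro V _ _ _ 𝕋 hcomm hfin lam hnd hindep
  classical
  haveI := hfin
  haveI hTF : Module.IsTorsionFree ℤ 𝕋 := by
    constructor
    intro r hr T₁ T₂ h
    have hr0 : r ≠ 0 := by
      rintro rfl
      have := hr.1 (show (0 : ℤ) * 0 = 0 * 1 by simp)
      exact zero_ne_one this
    have h1 : (r : ℂ) • ((T₁ : Module.End ℂ V) - T₂) = 0 := by
      have h2 := congrArg (fun x : 𝕋 => (x : Module.End ℂ V)) h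
      simp only [SetLike.val_smul] at h2
      rw [smul_sub, Int.cast_smul_eq_zsmul, Int.cast_smul_eq_zsmul, h2, sub_self]
    have hrc : (r : ℂ) ≠ 0 := by exact_mod_cast hr0
    have h3 := (smul_eq_zero.mp h1).resolve_left hrc
    exact Subtype.ext (sub_eq_zero.mp h3)
  haveI : Module.Free ℤ 𝕋 := Module.free_of_finite_type_torsion_free'
  let ι := Module.Free.ChooseBasisIndex ℤ 𝕋
  let b : Basis ι ℤ 𝕋 := Module.Free.chooseBasis ℤ 𝕋
  let t : ι → Module.End ℂ V := fun i => ((b i : 𝕋) : Module.End ℂ V)
  have ht : ∀ i, t i ∈ 𝕋 := fun i => (b i).2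
  -- `ℤ`-independence of `t`
  have hZ : LinearIndependent ℤ t := by
    have h1 := b.linearIndependent
    have h2 : LinearMap.ker (𝕋.val.toLinearMap) = ⊥ := by
      rw [LinearMap.ker_eq_bot]
      exact Subtype.val_injective
    exact h1.map' (𝕋.val.toLinearMap) h2
  -- the descent property for `ι`-indexed families
  have hindep' : ∀ c : ι → ℂ, ∑ i, c i • t i = 0 →
      ∀ φ : ℂ →ₗ[ℚ] ℚ, ∑ i, ((φ (c i) : ℚ) : ℂ) • t i = 0 := by
    intro c hc φ
    let e := Fintype.equivFin ι
    have h1 : ∑ k, (c ∘ e.symm) k • (t ∘ e.symm) k = 0 := by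
      rw [← hc]
      exact Fintype.sum_equiv e.symm _ _ (fun _ => rfl)
    have h2 := hindep (Fintype.card ι) (t ∘ e.symm) (fun k => ht _) (c ∘ e.symm) h1 φ
    rw [← h2]
    exact (Fintype.sum_equiv e.symm _ _ (fun _ => rfl)).symm
  have hC := FA_S23_Duality_indep t hZ hindep'
  -- every `T ∈ 𝕋` is an integral combination of the `t i`
  have hrepr : ∀ T ∈ 𝕋, ∃ n : ι → ℤ, T = ∑ i, ((n i : ℤ) : ℂ) • t i := by
    intro T hT
    refine ⟨fun i => b.repr ⟨T, hT⟩ i, ?_⟩
    have h1 := b.sum_repr ⟨T, hT⟩
    have h2 := congrArg (fun x : 𝕋 => (x : Module.End ℂ V)) h1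
    simp only [AddSubmonoidClass.coe_finsetSum] at h2
    refine h2.symm.trans ?_
    refine Finset.sum_congr rfl fun i _ => ?_
    rw [Int.cast_smul_eq_zsmul]
    rfl
  have hlam : ∀ (n : ι → ℤ) (f : V),
      lam ((∑ i, ((n i : ℤ) : ℂ) • t i) f) = ∑ i, ((n i : ℤ) : ℂ) * lam (t i f) := by
    intro n f
    rw [LinearMap.sum_apply, map_sum]
    refine Finset.sum_congr rfl fun i _ => ?_
    rw [LinearMap.smul_apply, map_smul, smul_eq_mul]
  -- the map `Ψ`
  let Ψ : V →ₗ[ℂ] (ι → ℂ) := LinearMap.pi (fun i => lam ∘ₗ (t i))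
  have hΨ : ∀ f i, Ψ f i = lam (t i f) := fun _ _ => rfl
  have hΨinj : Function.Injective Ψ := by
    rw [← LinearMap.ker_eq_bot, LinearMap.ker_eq_bot']
    intro f hf
    apply hnd
    intro T hT
    obtain ⟨n, rfl⟩ := hrepr T hT
    rw [hlam]
    refine Finset.sum_eq_zero fun i _ => ?_
    have := congrFun hf i
    rw [hΨ] at this
    rw [this]
    simp
  -- independence of the functionals `lam ∘ t i`
  have hdual : LinearIndependent ℂ (fun i => (lam ∘ₗ (t i) : Module.Dual ℂ V)) := by
    rw [Fintype.linearIndependent_iff]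
    intro c hc
    have hT0 : ∑ i, c i • t i = 0 := by
      apply LinearMap.ext
      intro f
      apply hnd
      intro S hS
      have hcommS : Commute S (∑ i, c i • t i) :=
        Commute.sum_right _ _ _ (fun i _ => (hcomm S hS (t i) (ht i)).smul_right (c i))
      have h1 : S ((∑ i, c i • t i) f) = (∑ i, c i • t i) (S f) := by
        have := congrArg (fun L : Module.End ℂ V => L f) hcommS.eq
        exact this
      have h2 : lam (S ((∑ i, c i • t i) f)) = 0 := by
        rw [h1]
        have h3 := congrArg (fun L : Module.Dual ℂ V => L (S f)) hc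
        simp only [LinearMap.sum_apply, LinearMap.smul_apply, LinearMap.comp_apply,
          LinearMap.zero_apply] at h3
        rw [LinearMap.sum_apply, map_sum]
        rw [← h3]
        refine Finset.sum_congr rfl fun i _ => ?_
        rw [LinearMap.smul_apply, map_smul]
      simpa using h2
    exact Fintype.linearIndependent_iff.mp hC c hT0
  -- dimensions
  have hle1 : finrank ℂ V ≤ Fintype.card ι := by
    have := LinearMap.finrank_le_finrank_of_injective hΨinj
    rwa [Module.finrank_fintype_fun_eq_card] at this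
  have hle2 : Fintype.card ι ≤ finrank ℂ V := by
    have := hdual.fintype_card_le_finrank
    rwa [Subspace.dual_finrank_eq] at this
  have hdim : finrank ℂ V = finrank ℂ (ι → ℂ) := by
    rw [Module.finrank_fintype_fun_eq_card]
    exact le_antisymm hle1 hle2
  have hΨsurj : Function.Surjective Ψ :=
    (LinearMap.injective_iff_surjective_of_finrank_eq_finrank hdim).mp hΨinj
  -- the dual basis
  choose f hf using fun j => hΨsurj (Pi.single j (1 : ℂ) : ι → ℂ)
  have hmem : ∀ j, f j ∈ {g : V | ∀ T ∈ 𝕋, ∃ n : ℤ, lam (T g) = n} := by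
    intro j T hT
    obtain ⟨n, rfl⟩ := hrepr T hT
    refine ⟨n j, ?_⟩
    rw [hlam]
    have : ∀ i, lam (t i (f j)) = (Pi.single j (1 : ℂ) : ι → ℂ) i := by
      intro i
      rw [← hΨ, hf j]
    simp only [this]
    rw [Finset.sum_eq_single j]
    · simp
    · intro i _ hij
      simp [hij]
    · intro h
      exact absurd (Finset.mem_univ j) h
  rw [eq_top_iff]
  intro v _
  have hv : v = ∑ j, Ψ v j • f j := by
    apply hΨinj
    rw [map_sum]
    funext i
    rw [Finset.sum_apply]
    simp only [map_smul, hf, Pi.smul_apply, Pi.single_apply, smul_eq_mul, mul_ite, mul_one,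
      mul_zero]
    simp
  rw [hv]
  exact Submodule.sum_mem _ fun j _ => Submodule.smul_mem _ _ (Submodule.subset_span (hmem j))

end FA_S23
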