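import Mathlib

/-!
# S23, part C: homomorphisms `Γ → ℂ` of a finitely generated group vanishing on a given set are
spanned by the integer valued ones
-/

set_option autoImplicit false

namespace FA_S23

theorem FA_S23_hom_mem_of_gen {Γ : Type*} [Group Γ] (S : Set Γ) (hS : Subgroup.closure S = ⊤)
    (A : AddSubgroup ℂ) (χ : Additive Γ →+ ℂ) (h : ∀ s ∈ S, χ (Additive.ofMul s) ∈ A) (γ : Γ) :
    χ (Additive.ofMul γ) ∈ A := by
  have hγ : γ ∈ Subgroup.closure S := by rw [hS]; trivial
  induction hγ using Subgroup.closure_induction with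
  | mem x hx => exact h x hx
  | one => rw [ofMul_one, map_zero]; exact A.zero_mem
  | mul x y _ _ hx hy => rw [ofMul_mul, map_add]; exact A.add_mem hx hy
  | inv x _ hx => rw [ofMul_inv, map_neg]; exact A.neg_mem hx

theorem FA_S23_hom_span {Γ : Type*} [Group Γ] [Group.FG Γ] (P : Set Γ)
    (ψ : Additive Γ →+ ℂ) (hψ : ∀ γ ∈ P, ψ (Additive.ofMul γ) = 0) :
    ψ ∈ Submodule.span ℂ {ψ' : Additive Γ →+ ℂ | (∀ γ ∈ P, ψ' (Additive.ofMul γ) = 0) ∧
      ∀ γ : Γ, ∃ n : ℤ, ψ' (Additive.ofMul γ) = n} := by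
  classical
  obtain ⟨S, hS⟩ := Group.FG.out (G := Γ)
  let b := Module.Basis.ofVectorSpace ℚ ℂ
  -- the coordinate homomorphisms
  let cl : Module.Basis.ofVectorSpaceIndex ℚ ℂ → (Additive Γ →+ ℂ) := fun l =>
    ((algebraMap ℚ ℂ).toAddMonoidHom.comp (b.coord l).toAddMonoidHom).comp ψ
  have hcl_apply : ∀ l (γ : Additive Γ), cl l γ = ((b.coord l (ψ γ) : ℚ) : ℂ) := fun l γ => rfl
  have hclP : ∀ l, ∀ γ ∈ P, cl l (Additive.ofMul γ) = 0 := by
    intro l γ hγ
    rw [hcl_apply, hψ γ hγ, map_zero, Rat.cast_zero]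
  -- the finite set of indices occurring on the generators
  let L : Finset (Module.Basis.ofVectorSpaceIndex ℚ ℂ) :=
    S.biUnion fun s => (b.repr (ψ (Additive.ofMul s))).support
  have hL : ∀ l, l ∉ L → cl l = 0 := by
    intro l hl
    refine AddMonoidHom.ext fun γ => ?_
    obtain ⟨γ, rfl⟩ := Additive.ofMul.surjective γ
    have := FA_S23_hom_mem_of_gen (S : Set Γ) hS ⊥ (cl l) (fun s hs => by
      rw [AddSubgroup.mem_bot, hcl_apply]
      have : l ∉ (b.repr (ψ (Additive.ofMul s))).support := by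
        intro h
        exact hl (Finset.mem_biUnion.mpr ⟨s, hs, h⟩)
      rw [Finsupp.notMem_support_iff] at this
      simp [Module.Basis.coord_apply, this]) γ
    rwa [AddSubgroup.mem_bot] at this
  -- `ψ = ∑_{l ∈ L} b l • cl l`
  have hsum : ψ = ∑ l ∈ L, (b l : ℂ) • cl l := by
    refine AddMonoidHom.ext fun γ => ?_
    have h1 : (b.repr (ψ γ)).support ⊆ L := by
      intro l hl
      by_contra hnl
      have h0 := DFunLike.congr_fun (hL l hnl) γ
      rw [hcl_apply] at h0
      simp only [AddMonoidHom.zero_apply, Rat.cast_eq_zero, Module.Basis.coord_apply] at h0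
      exact (Finsupp.mem_support_iff.mp hl) h0
    have h2 := b.linearCombination_repr (ψ γ)
    rw [Finsupp.linearCombination_apply, Finsupp.sum_of_support_subset _ h1 _ (by simp)] at h2
    rw [AddMonoidHom.finset_sum_apply]
    conv_lhs => rw [← h2]
    refine Finset.sum_congr rfl fun l _ => ?_
    rw [AddMonoidHom.smul_apply, hcl_apply, smul_eq_mul, Module.Basis.coord_apply,
      Rat.smul_def, mul_comm]
  rw [hsum]
  refine Submodule.sum_mem _ fun l _ => Submodule.smul_mem _ _ ?_
  -- `cl l` is rational valued: clear denominators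
  let D : ℕ := ∏ s ∈ S, (b.coord l (ψ (Additive.ofMul s))).den
  have hD0 : (D : ℂ) ≠ 0 := by
    have : D ≠ 0 := by
      simp only [D]
      exact Finset.prod_ne_zero_iff.mpr fun s _ => (b.coord l (ψ (Additive.ofMul s))).den_nz
    exact_mod_cast this
  have hint : ∀ γ : Γ, ∃ n : ℤ, ((D : ℂ) • cl l) (Additive.ofMul γ) = n := by
    intro γ
    have := FA_S23_hom_mem_of_gen (S : Set Γ) hS (Int.castAddHom ℂ).range ((D : ℂ) • cl l)
      (fun s hs => by
        have hdvd : (b.coord l (ψ (Additive.ofMul s))).den ∣ D :=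
          Finset.dvd_prod_of_mem (fun s => (b.coord l (ψ (Additive.ofMul s))).den) hs
        obtain ⟨e, he⟩ := hdvd
        refine ⟨(b.coord l (ψ (Additive.ofMul s))).num * e, ?_⟩
        rw [AddMonoidHom.smul_apply, hcl_apply, smul_eq_mul]
        have hq : ((b.coord l (ψ (Additive.ofMul s)) : ℚ) : ℂ)
            = ((b.coord l (ψ (Additive.ofMul s))).num : ℂ) /
              ((b.coord l (ψ (Additive.ofMul s))).den : ℂ) := by
          conv_lhs => rw [← Rat.num_div_den (b.coord l (ψ (Additive.ofMul s)))]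
          push_cast; rfl
        have hden : ((b.coord l (ψ (Additive.ofMul s))).den : ℂ) ≠ 0 := by
          exact_mod_cast (b.coord l (ψ (Additive.ofMul s))).den_nz
        rw [hq, he]
        simp only [Int.coe_castAddHom]
        push_cast
        field_simp) γ
    obtain ⟨n, hn⟩ := this
    exact ⟨n, hn.symm⟩
  have : cl l = ((D : ℂ)⁻¹) • ((D : ℂ) • cl l) := by
    rw [smul_smul, inv_mul_cancel₀ hD0, one_smul]
  rw [this]
  refine Submodule.smul_mem _ _ (Submodule.subset_span ⟨fun γ hγ => ?_, hint⟩)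
  rw [AddMonoidHom.smul_apply, hclP l γ hγ, smul_zero]

end FA_S23
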