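import Mathlib

/-!
# S23, part C (abstract): rationality of linear relations between Hecke operators

Operators `TV i` on `V`, `TH i` on `H`, an injective linear map `Θ : V × V → H` intertwining them,
"evaluations" `ev x : H → ℂ` (jointly injective) such that the `TH i` preserve the elements with
integral evaluations, and the range of `Θ` is spanned by its elements with integral evaluations.
Then a `ℂ`-linear relation `∑ cᵢ tᵢ = 0` between elements of `ℤ[TV]` implies `∑ φ(cᵢ) tᵢ = 0`
for every `ℚ`-linear `φ : ℂ → ℚ`.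
-/

set_option autoImplicit false

namespace FA_S23

variable {ι V H X : Type*} [AddCommGroup V] [Module ℂ V] [AddCommGroup H] [Module ℂ H]

theorem FA_S23_indep_abstract
    (TV : ι → Module.End ℂ V) (TH : ι → Module.End ℂ H)
    (Θ : V × V →ₗ[ℂ] H) (hΘ : Function.Injective Θ)
    (hint : ∀ i f g, Θ (TV i f, TV i g) = TH i (Θ (f, g)))
    (ev : X → H →ₗ[ℂ] ℂ) (hev : ∀ h : H, (∀ x, ev x h = 0) → h = 0)
    (hTHint : ∀ i (h : H), (∀ x, ∃ n : ℤ, ev x h = n) → ∀ x, ∃ n : ℤ, ev x (TH i h) = n)
    (hspan : ∀ h ∈ LinearMap.range Θ, h ∈ Submodule.span ℂ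
      {h' | h' ∈ LinearMap.range Θ ∧ ∀ x, ∃ n : ℤ, ev x h' = n})
    (m : ℕ) (t : Fin m → Module.End ℂ V) (ht : ∀ i, t i ∈ Algebra.adjoin ℤ (Set.range TV))
    (c : Fin m → ℂ) (hc : ∑ i, c i • t i = 0) (φ : ℂ →ₗ[ℚ] ℚ) :
    ∑ i, ((φ (c i) : ℚ) : ℂ) • t i = 0 := by
  classical
  let ρV : FreeAlgebra ℤ ι →ₐ[ℤ] Module.End ℂ V := FreeAlgebra.lift ℤ TV
  let ρH : FreeAlgebra ℤ ι →ₐ[ℤ] Module.End ℂ H := FreeAlgebra.lift ℤ TH
  -- intertwining
  have hρ : ∀ a : FreeAlgebra ℤ ι, ∀ f g, Θ (ρV a f, ρV a g) = ρH a (Θ (f, g)) := by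
    intro a
    induction a using FreeAlgebra.induction with
    | grade0 r =>
      intro f g
      simp only [AlgHom.commutes, Module.algebraMap_end_apply]
      rw [← map_zsmul Θ]
      rfl
    | grade1 i =>
      intro f g
      simp only [ρV, ρH, FreeAlgebra.lift_ι_apply]
      exact hint i f g
    | mul a b ha hb =>
      intro f g
      simp only [map_mul, Module.End.mul_apply]
      rw [ha, hb]
    | add a b ha hb =>
      intro f g
      simp only [map_add, LinearMap.add_apply]
      rw [← ha, ← hb, ← map_add Θ]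
      rfl
  -- integrality
  have hρint : ∀ a : FreeAlgebra ℤ ι, ∀ h : H, (∀ x, ∃ n : ℤ, ev x h = n) →
      ∀ x, ∃ n : ℤ, ev x (ρH a h) = n := by
    intro a
    induction a using FreeAlgebra.induction with
    | grade0 r =>
      intro h hh x
      obtain ⟨n, hn⟩ := hh x
      refine ⟨r * n, ?_⟩
      simp only [AlgHom.commutes, Module.algebraMap_end_apply]
      rw [map_zsmul, hn]
      simp
    | grade1 i =>
      intro h hh x
      simp only [ρH, FreeAlgebra.lift_ι_apply]
      exact hTHint i h hh x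
    | mul a b ha hb =>
      intro h hh x
      simp only [map_mul, Module.End.mul_apply]
      exact ha _ (hb h hh) x
    | add a b ha hb =>
      intro h hh x
      obtain ⟨n, hn⟩ := ha h hh x
      obtain ⟨n', hn'⟩ := hb h hh x
      refine ⟨n + n', ?_⟩
      simp only [map_add, LinearMap.add_apply]
      rw [hn, hn']
      simp
  -- lifts
  have hlift : ∀ i, ∃ a : FreeAlgebra ℤ ι, ρV a = t i := by
    intro i
    have := ht i
    rw [Algebra.adjoin_range_eq_range_freeAlgebra_lift] at this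
    exact this
  choose a ha using hlift
  -- the relation on integral elements of the range
  have hrel : ∀ h' ∈ LinearMap.range Θ, (∀ x, ∃ n : ℤ, ev x h' = n) →
      ∑ i, ((φ (c i) : ℚ) : ℂ) • ρH (a i) h' = 0 := by
    rintro _ ⟨⟨f, g⟩, rfl⟩ hh
    have h0 : ∑ i, c i • ρH (a i) (Θ (f, g)) = 0 := by
      have e1 : ∀ i, c i • ρH (a i) (Θ (f, g)) = Θ (c i • t i f, c i • t i g) := by
        intro i
        rw [← hρ (a i) f g, ha i, ← map_smul Θ]
        rfl
      simp only [e1]
      rw [← map_sum Θ]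
      have e2 : ∑ i, ((c i • t i f, c i • t i g) : V × V) =
          (∑ i, c i • t i f, ∑ i, c i • t i g) := by
        rw [Prod.ext_iff]
        simp [Prod.fst_sum, Prod.snd_sum]
      rw [e2]
      have e3 : ∀ v : V, ∑ i, c i • t i v = 0 := by
        intro v
        have := congrArg (fun T : Module.End ℂ V => T v) hc
        simpa using this
      rw [e3 f, e3 g]
      exact map_zero Θ
    apply hev
    intro x
    have hx := congrArg (ev x) h0
    rw [map_sum, map_zero] at hx
    simp only [map_smul, smul_eq_mul] at hx ⊢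
    rw [map_sum]
    simp only [map_smul, smul_eq_mul]
    have hn : ∀ i, ∃ n : ℤ, ev x (ρH (a i) (Θ (f, g))) = n := fun i => hρint (a i) _ hh x
    choose n hn' using hn
    simp only [hn'] at hx ⊢
    -- apply `φ`
    have h1 := congrArg φ hx
    rw [map_sum, map_zero] at h1
    have h2 : ∀ i, φ (c i * (n i : ℂ)) = (n i : ℚ) * φ (c i) := by
      intro i
      have : c i * (n i : ℂ) = (n i : ℚ) • c i := by
        rw [Rat.smul_def]
        push_cast
        ring
      rw [this, map_smul, smul_eq_mul]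
    simp only [h2] at h1
    have h3 : ((∑ i, (n i : ℚ) * φ (c i) : ℚ) : ℂ) = 0 := by rw [h1]; simp
    push_cast at h3
    rw [← h3]
    refine Finset.sum_congr rfl fun i _ => ?_
    ring
  -- extend to the range by linearity
  have hrel'' : ∀ h ∈ Submodule.span ℂ
      {h' | h' ∈ LinearMap.range Θ ∧ ∀ x, ∃ n : ℤ, ev x h' = n},
      ∑ i, ((φ (c i) : ℚ) : ℂ) • ρH (a i) h = 0 := by
    intro h hh
    refine Submodule.span_induction
      (p := fun h _ => ∑ i, ((φ (c i) : ℚ) : ℂ) • ρH (a i) h = 0) ?_ ?_ ?_ ?_ hh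
    · intro x hx
      exact hrel x hx.1 hx.2
    · simp
    · intro x y _ _ hx hy
      simp only [map_add, smul_add, Finset.sum_add_distrib, hx, hy, add_zero]
    · intro r x _ hx
      have : ∀ i, ((φ (c i) : ℚ) : ℂ) • ρH (a i) (r • x) =
          r • (((φ (c i) : ℚ) : ℂ) • ρH (a i) x) := by
        intro i
        rw [map_smul, smul_comm]
      simp only [this]
      rw [← Finset.smul_sum, hx, smul_zero]
  have hrel' : ∀ h ∈ LinearMap.range Θ, ∑ i, ((φ (c i) : ℚ) : ℂ) • ρH (a i) h = 0 :=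
    fun h hh => hrel'' h (hspan h hh)
  -- conclusion
  ext f
  simp only [LinearMap.sum_apply, LinearMap.smul_apply, LinearMap.zero_apply]
  have h4 := hrel' (Θ (f, 0)) ⟨(f, 0), rfl⟩
  have e1 : ∀ i, ((φ (c i) : ℚ) : ℂ) • ρH (a i) (Θ (f, 0)) =
      Θ (((φ (c i) : ℚ) : ℂ) • t i f, ((φ (c i) : ℚ) : ℂ) • t i 0) := by
    intro i
    rw [← hρ (a i) f 0, ha i, ← map_smul Θ]
    rfl
  simp only [e1] at h4
  rw [← map_sum Θ] at h4
  have h5 := hΘ (h4.trans (map_zero Θ).symm)
  have h6 := congrArg Prod.fst h5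
  simpa [Prod.fst_sum] using h6

end FA_S23
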