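import Fermat.Agent.S23.HeckeHom
import Fermat.Agent.S23.HomSpan
import Fermat.Agent.S23.IndepAbstract
import Fermat.Agent.S23.Interface

/-!
# S23, part C: `FA_S23_Target_Indep`
-/

set_option autoImplicit false

namespace FA_S23

open FA_S22 FA_S21 UpperHalfPlane Matrix.SpecialLinearGroup CongruenceSubgroup ModularGroup
open ModularCurve ModularCurve.Period
open P2MW.S_ModularForm_heckeT_slash_eq_self_of_mem_Gamma0.ModularForm.HeckeSlashInvariance
open scoped ModularForm MatrixGroups Manifold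

section reps

variable (N : ℕ) [NeZero N] (p : ℕ) [NeZero p]

/-- the permutation of the representatives of `U_p` induced by `J` -/
def FA_S23_piU : ZMod p → ZMod p := fun x => -x

lemma FA_S23_piU_bijective : Function.Bijective (FA_S23_piU p) :=
  Function.Involutive.bijective fun x => neg_neg x

/-- the translations -/
noncomputable def FA_S23_tauU : ZMod p → ↥(Gamma0 N) :=
  fun x => FA_S23_trans N (-(FA_S23_carry p x : ℤ))

lemma FA_S23_theta_alphaU (x : ZMod p) :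
    FA_S23_theta (FA_S22_alphaU p x) =
      FA_S22_phi N (FA_S23_tauU N p x) * FA_S22_alphaU p (FA_S23_piU p x) :=
  FA_S23_theta_heckeMatrix p N x

/-- the permutation of the representatives of `T_p` induced by `J` -/
def FA_S23_piT : OnePoint (ZMod p) → OnePoint (ZMod p) :=
  fun x => x.elim OnePoint.infty (fun j => ((-j : ZMod p) : OnePoint (ZMod p)))

lemma FA_S23_piT_bijective : Function.Bijective (FA_S23_piT p) := by
  apply Function.Involutive.bijective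
  intro x
  induction x using OnePoint.rec with
  | infty => rfl
  | coe j =>
    show ((- -j : ZMod p) : OnePoint (ZMod p)) = _
    rw [neg_neg]

/-- the translations -/
noncomputable def FA_S23_tauT : OnePoint (ZMod p) → ↥(Gamma0 N) :=
  fun x => x.elim 1 (fun j => FA_S23_trans N (-(FA_S23_carry p j : ℤ)))

lemma FA_S23_theta_heckeRep (x : OnePoint (ZMod p)) :
    FA_S23_theta (heckeRep p x) =
      FA_S22_phi N (FA_S23_tauT N p x) * heckeRep p (FA_S23_piT p x) := by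
  induction x using OnePoint.rec with
  | infty =>
    show FA_S23_theta (ModularForm.heckeDiagMatrix p) =
      FA_S22_phi N 1 * ModularForm.heckeDiagMatrix p
    rw [FA_S23_theta_heckeDiagMatrix, map_one, one_mul]
  | coe j => exact FA_S23_theta_heckeMatrix p N j

end reps

section final

variable (N : ℕ) [NeZero N]

/-- index type of the Hecke generators -/
abbrev FA_S23_idx : Type :=
  {ℓ : ℕ // ℓ.Prime ∧ ¬ ℓ ∣ N} ⊕ {q : ℕ // q.Prime ∧ q ∣ N}

/-- the Hecke generators -/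
noncomputable def FA_S23_TV : FA_S23_idx N → Module.End ℂ (CuspForm (Gamma0 N) 2) :=
  Sum.elim (fun ℓ => CuspForm.heckeTLin 2 ℓ.2.1 ℓ.2.2) (fun q => CuspForm.heckeULin 2 q.2.2)

lemma FA_S23_range_TV : Set.range (FA_S23_TV N) = CuspForm.heckeGenerators N 2 ∅ := by
  ext T
  constructor
  · rintro ⟨i, rfl⟩
    rcases i with ℓ | q
    · exact Or.inl ⟨ℓ.1, ℓ.2.1, ℓ.2.2, Set.notMem_empty _, rfl⟩
    · exact Or.inr ⟨q.1, q.2.2, q.2.1, Set.notMem_empty _, rfl⟩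
  · rintro (⟨ℓ, hℓ, hℓN, -, rfl⟩ | ⟨q, hqN, hq, -, rfl⟩)
    · exact ⟨Sum.inl ⟨ℓ, hℓ, hℓN⟩, rfl⟩
    · exact ⟨Sum.inr ⟨q, hq, hqN⟩, rfl⟩

/-- the Hecke operators on homomorphisms -/
noncomputable def FA_S23_TH : FA_S23_idx N → Module.End ℂ (Additive (Gamma0 N) →+ ℂ) :=
  Sum.elim
    (fun ℓ =>
      haveI : Fact ℓ.1.Prime := ⟨ℓ.2.1⟩
      FA_S23_heckeHom N (heckeRep ℓ.1) (FA_S22_hexT N ℓ.1 ℓ.2.2) (FA_S22_huniqT N ℓ.1))
    (fun q =>
      haveI : NeZero q.1 := ⟨q.2.1.ne_zero⟩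
      FA_S23_heckeHom N (FA_S22_alphaU q.1) (FA_S22_hexU N q.1 q.2.2) (FA_S22_huniqU N q.1))

/-- evaluation -/
def FA_S23_ev (γ : ↥(Gamma0 N)) : (Additive (Gamma0 N) →+ ℂ) →ₗ[ℂ] ℂ where
  toFun ψ := ψ (Additive.ofMul γ)
  map_add' _ _ := rfl
  map_smul' _ _ := rfl

lemma FA_S23_intertwine (i : FA_S23_idx N) (f g : CuspForm (Gamma0 N) 2) :
    periodHomPair N (FA_S23_TV N i f, FA_S23_TV N i g) =
      FA_S23_TH N i (periodHomPair N (f, g)) := by
  rcases i with ℓ | q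
  · haveI : Fact ℓ.1.Prime := ⟨ℓ.2.1⟩
    haveI : NeZero ℓ.1 := ⟨ℓ.2.1.ne_zero⟩
    exact FA_S23_periodHomPair_hecke N (heckeRep ℓ.1) (FA_S22_hexT N ℓ.1 ℓ.2.2)
      (FA_S22_huniqT N ℓ.1) (FA_S22_det_heckeRep_pos ℓ.1) (FA_S23_piT ℓ.1)
      (FA_S23_piT_bijective ℓ.1) (FA_S23_tauT N ℓ.1) (FA_S23_theta_heckeRep N ℓ.1)
      (CuspForm.heckeTLin 2 ℓ.2.1 ℓ.2.2)
      (fun f => by rw [CuspForm.coe_heckeTLin_apply, heckeT_eq_sum_onePoint]) f g
  · haveI : NeZero q.1 := ⟨q.2.1.ne_zero⟩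
    exact FA_S23_periodHomPair_hecke N (FA_S22_alphaU q.1) (FA_S22_hexU N q.1 q.2.2)
      (FA_S22_huniqU N q.1) (fun x => ModularForm.det_heckeMatrix_pos q.1 x.val)
      (FA_S23_piU q.1) (FA_S23_piU_bijective q.1) (FA_S23_tauU N q.1)
      (FA_S23_theta_alphaU N q.1)
      (CuspForm.heckeULin 2 q.2.2)
      (fun f => by rw [CuspForm.coe_heckeULin_apply, heckeU_eq_sum_zmod]; rfl) f g

lemma FA_S23_TH_int (i : FA_S23_idx N) (ψ : Additive (Gamma0 N) →+ ℂ)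
    (hψ : ∀ γ : ↥(Gamma0 N), ∃ n : ℤ, FA_S23_ev N γ ψ = n) (γ : ↥(Gamma0 N)) :
    ∃ n : ℤ, FA_S23_ev N γ (FA_S23_TH N i ψ) = n := by
  rcases i with ℓ | q
  · haveI : Fact ℓ.1.Prime := ⟨ℓ.2.1⟩
    exact FA_S23_heckeHom_int N (heckeRep ℓ.1) (FA_S22_hexT N ℓ.1 ℓ.2.2)
      (FA_S22_huniqT N ℓ.1) ψ hψ γ
  · haveI : NeZero q.1 := ⟨q.2.1.ne_zero⟩
    exact FA_S23_heckeHom_int N (FA_S22_alphaU q.1) (FA_S22_hexU N q.1 q.2.2)
      (FA_S22_huniqU N q.1) ψ hψ γ

end final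

/-- **C**: rationality of linear relations between Hecke operators. -/
theorem FA_S23_indep : FA_S23_Target_Indep := by
  intro N _ hS21 m t ht c hc φ
  refine FA_S23_indep_abstract (FA_S23_TV N) (FA_S23_TH N) (periodHomPair N) hS21.1
    (FA_S23_intertwine N) (FA_S23_ev N) ?_ (FA_S23_TH_int N) ?_ m t ?_ c hc φ
  · intro h hh
    refine AddMonoidHom.ext fun γ => ?_
    obtain ⟨γ, rfl⟩ := Additive.ofMul.surjective γ
    exact hh γ
  · intro h hh
    rw [hS21.2] at hh ⊢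
    have := FA_S23_hom_span
      {γ : ↥(Gamma0 N) | (((γ : SL(2, ℤ)) : Matrix (Fin 2) (Fin 2) ℤ)).trace ^ 2 = 4} h
      (fun γ hγ => hh γ hγ)
    refine Submodule.span_mono ?_ this
    rintro ψ ⟨h1, h2⟩
    exact ⟨fun γ hγ => h1 γ hγ, h2⟩
  · intro i
    rw [FA_S23_range_TV]
    exact ht i

end FA_S23
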