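import Fermat.Agent.S23.Glue
import Fermat.Agent.S23.Duality
import Fermat.Agent.S23.Coeff
import Fermat.Agent.S23.CoeffLinear
import Fermat.Agent.S23.Indep
import Fermat.Agent.S21.Glue
import Fermat.Agent.S21.BoundGamma0
import Fermat.Agent.S21.Final
import Fermat.Agent.S22.GlueFinal

/-!
# S23 from S21 (everything else is proved)
-/

set_option autoImplicit false

namespace FA_S23

open CongruenceSubgroup

/-- `S₂(Γ₀(N))` is finite dimensional (unconditional) -/
theorem FA_S23_finiteDimensional (N : ℕ) [NeZero N] :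
    FiniteDimensional ℂ (CuspForm (Gamma0 N) 2) := by
  haveI : FiniteDimensional ℂ (ModularCurve.Period.parabolicHoms ℂ (Gamma0 N) ℂ) :=
    (Fermat.Agent.S21.FA_S21_bound_orbits N).1
  exact FA_S21.FA_S21_finiteDimensional N

/-- **S23 from S21** -/
theorem FA_S23_of_S21 (N : ℕ) [NeZero N] (hS21 : FA_S23_S21 N) :
    CuspForm.HasIntegralStructure N 2 :=
  FA_S23_of_targets FA_S23_duality FA_S23_coeff FA_S23_coeffLinear FA_S23_indep N hS21
    (FA_S23_finiteDimensional N) (FA_S22.FA_S22_main N 2 ∅)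

/-- **S23 from the lower bound `genusFormula N ≤ dim S₂(Γ₀(N))`** -/
theorem FA_S23_of_ge (N : ℕ) [NeZero N]
    (h : ModularCurve.genusFormula N ≤ (Module.finrank ℂ (CuspForm (Gamma0 N) 2) : ℚ)) :
    CuspForm.HasIntegralStructure N 2 :=
  FA_S23_of_S21 N (FA_S21.FA_S21_of_ge N h)

end FA_S23
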