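import Fermat.Agent.S23.HeckeInv
import Fermat.Agent.S22.GlueHecke
import Fermat.Prelude.Def_ModularCurve_PeriodHomPair

/-!
# S23, part C: the Hecke representatives and conjugation by `J = diag(-1, 1)`
-/

set_option autoImplicit false

namespace FA_S23

open FA_S22 UpperHalfPlane Matrix.SpecialLinearGroup CongruenceSubgroup ModularGroup
open ModularCurve.Period
open P2MW.S_ModularForm_heckeT_slash_eq_self_of_mem_Gamma0.ModularForm.HeckeSlashInvariance
open scoped ModularForm MatrixGroups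

lemma FA_S23_J_inv : (J : GL (Fin 2) ℝ)⁻¹ = J := by
  apply inv_eq_of_mul_eq_one_left
  have := J_sq
  rwa [sq] at this

/-- conjugation by `J` -/
noncomputable def FA_S23_theta : GL (Fin 2) ℝ →* GL (Fin 2) ℝ := (MulAut.conj J).toMonoidHom

lemma FA_S23_theta_apply (g : GL (Fin 2) ℝ) : FA_S23_theta g = J * g * J := by
  show J * g * J⁻¹ = J * g * J
  rw [FA_S23_J_inv]

lemma FA_S23_theta_val (g : GL (Fin 2) ℝ) :
    (FA_S23_theta g : Matrix (Fin 2) (Fin 2) ℝ) = !![g 0 0, -g 0 1; -g 1 0, g 1 1] := by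
  rw [FA_S23_theta_apply, Units.val_mul, Units.val_mul, val_J]
  ext i j
  fin_cases i <;> fin_cases j <;>
    simp [Matrix.mul_apply, Fin.sum_univ_two, Matrix.vecMul, dotProduct]

lemma FA_S23_theta_phi (N : ℕ) (γ : ↥(Gamma0 N)) :
    FA_S22_phi N (jConjGamma0 N γ) = FA_S23_theta (FA_S22_phi N γ) := by
  apply Units.ext
  rw [FA_S23_theta_val]
  ext i j
  fin_cases i <;> fin_cases j <;>
    simp [FA_S22_phi_apply, jConjMat]

/-- `T ^ m ∈ Γ₀(N)` -/
lemma FA_S23_T_zpow_mem (N : ℕ) (m : ℤ) : T ^ m ∈ Gamma0 N := by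
  rw [Gamma0_mem, coe_T_zpow]
  simp

/-- the translation as an element of `Γ₀(N)` -/
noncomputable def FA_S23_trans (N : ℕ) (m : ℤ) : ↥(Gamma0 N) := ⟨T ^ m, FA_S23_T_zpow_mem N m⟩

lemma FA_S23_phi_trans_val (N : ℕ) (m : ℤ) :
    (FA_S22_phi N (FA_S23_trans N m) : Matrix (Fin 2) (Fin 2) ℝ) = !![1, (m : ℝ); 0, 1] := by
  ext i j
  rw [FA_S22_phi_apply]
  have := FA_S22_isIntMat_mapGL (T ^ m) i j
  show ((mapGL ℝ (T ^ m) : GL (Fin 2) ℝ) : Matrix (Fin 2) (Fin 2) ℝ) i j = _
  rw [this, coe_T_zpow]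
  fin_cases i <;> fin_cases j <;> simp

section

variable (p : ℕ) [NeZero p]

/-- the carry `k` with `x.val + (-x).val = k * p` -/
noncomputable def FA_S23_carry (x : ZMod p) : ℕ := (x.val + (-x).val) / p

lemma FA_S23_carry_spec (x : ZMod p) : x.val + (-x).val = FA_S23_carry p x * p := by
  unfold FA_S23_carry
  have hdvd : p ∣ x.val + (-x).val := by
    rw [← ZMod.natCast_eq_zero_iff]
    push_cast
    simp
  exact (Nat.div_mul_cancel hdvd).symm

lemma FA_S23_theta_heckeMatrix (N : ℕ) (x : ZMod p) :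
    FA_S23_theta (ModularForm.heckeMatrix p x.val) =
      FA_S22_phi N (FA_S23_trans N (-(FA_S23_carry p x : ℤ))) *
        ModularForm.heckeMatrix p (-x).val := by
  have hp : p ≠ 0 := NeZero.ne p
  apply Units.ext
  rw [FA_S23_theta_val, Units.val_mul, FA_S23_phi_trans_val, ModularForm.val_heckeMatrix hp,
    ModularForm.val_heckeMatrix hp]
  have h := FA_S23_carry_spec p x
  have h' : ((x.val : ℝ)) + ((-x).val : ℝ) = (FA_S23_carry p x : ℝ) * (p : ℝ) := by
    exact_mod_cast h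
  have h'' : ((x.val : ℝ)) = (FA_S23_carry p x : ℝ) * (p : ℝ) - ((-x).val : ℝ) := by linarith
  ext i j
  fin_cases i <;> fin_cases j
  · simp [Matrix.mul_apply, Fin.sum_univ_two]
  · simp only [Fin.zero_eta, Fin.isValue, Fin.mk_one, Matrix.of_apply, Matrix.cons_val',
      Matrix.cons_val_one, Matrix.cons_val_fin_one, Matrix.cons_val_zero, Matrix.mul_apply,
      Fin.sum_univ_two]
    rw [h'']
    push_cast
    ring
  · simp [Matrix.mul_apply, Fin.sum_univ_two]
  · simp [Matrix.mul_apply, Fin.sum_univ_two]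

lemma FA_S23_theta_heckeDiagMatrix :
    FA_S23_theta (ModularForm.heckeDiagMatrix p) = ModularForm.heckeDiagMatrix p := by
  have hp : p ≠ 0 := NeZero.ne p
  apply Units.ext
  rw [FA_S23_theta_val, ModularForm.val_heckeDiagMatrix hp]
  ext i j
  fin_cases i <;> fin_cases j <;> simp

end

end FA_S23
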