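import Fermat.Agent.S23.Interface

/-!
# S23 glue: the frozen statement from the targets, S21, S22 and finite dimensionality
-/

set_option autoImplicit false

namespace FA_S23

open CongruenceSubgroup

theorem FA_S23_of_targets (hA : FA_S23_Target_Duality) (hB1 : FA_S23_Target_Coeff)
    (hB2 : FA_S23_Target_CoeffLinear) (hC : FA_S23_Target_Indep)
    (N : ℕ) [NeZero N] (hS21 : FA_S23_S21 N)
    (hfin : FiniteDimensional ℂ (CuspForm (Gamma0 N) 2))
    (hS22 : Module.Finite ℤ (CuspForm.heckeAlgebra N 2 ∅)) :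
    CuspForm.HasIntegralStructure N 2 := by
  obtain ⟨⟨lam, hlam⟩, h0, hzero⟩ := hB2 N
  have hcomm : ∀ a ∈ CuspForm.heckeAlgebra N 2 ∅, ∀ b ∈ CuspForm.heckeAlgebra N 2 ∅,
      Commute a b := by
    intro a ha b hb
    have := mul_comm (⟨a, ha⟩ : CuspForm.heckeAlgebra N 2 ∅) ⟨b, hb⟩
    exact congrArg Subtype.val this
  have hnondeg : ∀ f : CuspForm (Gamma0 N) 2,
      (∀ T ∈ CuspForm.heckeAlgebra N 2 ∅, lam (T f) = 0) → f = 0 := by
    intro f hf
    apply hzero
    intro n hn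
    obtain ⟨T, hT, hTn⟩ := hB1 N n hn
    rw [← hTn f, ← hlam]
    exact hf T hT
  have key := hA (CuspForm (Gamma0 N) 2) (CuspForm.heckeAlgebra N 2 ∅) hcomm hS22 lam hnondeg
    (hC N hS21)
  rw [CuspForm.HasIntegralStructure, eq_top_iff, ← key]
  apply Submodule.span_mono
  intro f hf
  apply Submodule.subset_span
  intro n
  rcases Nat.eq_zero_or_pos n with rfl | hn
  · exact ⟨0, by rw [h0 f]; simp⟩
  · obtain ⟨T, hT, hTn⟩ := hB1 N n hn
    obtain ⟨m, hm⟩ := hf T hT
    exact ⟨m, by rw [← hTn f, ← hlam, hm]⟩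

end FA_S23
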