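import Fermat.Agent.S21.Linear
import Fermat.Agent.S23.Conj
import Fermat.Agent.S22.GlueFinal

/-!
# S23, part C: Hecke equivariance of the period map (weight 2)
-/

set_option autoImplicit false

namespace FA_S23

open FA_S22 FA_S21 UpperHalfPlane Matrix.SpecialLinearGroup CongruenceSubgroup ModularGroup
open ModularCurve ModularCurve.Period
open P2MW.S_ModularForm_heckeT_slash_eq_self_of_mem_Gamma0.ModularForm.HeckeSlashInvariance
open scoped ModularForm MatrixGroups Manifold

/-- chain rule, `GL₂⁺` version -/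
theorem FA_S23_isPrim_slash {f F : ℍ → ℂ} (hF : FA_S21_IsPrim f F) (g : GL (Fin 2) ℝ)
    (hg : (0 : ℝ) < g.det.val) :
    FA_S21_IsPrim (f ∣[(2 : ℤ)] g) (fun τ => F (g • τ)) := by
  intro τ
  have h1 := (hasStrictDerivAt_smul hg τ).hasDerivAt
  have h2 := hF (g • τ)
  have h2' : HasDerivAt (F ∘ ofComplex) (f (g • τ)) (((g • ofComplex (τ : ℂ) : ℍ)) : ℂ) := by
    rw [ofComplex_apply]; exact h2
  have h3 := HasDerivAt.comp (τ : ℂ) h2' h1
  have hval : (f ∣[(2 : ℤ)] g) τ = f (g • τ) * (((g.det.val : ℝ) : ℂ) / denom g τ ^ 2) := by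
    rw [ModularForm.slash_apply]
    have hσ : σ g = .refl ℝ ℂ := by rw [σ, if_pos hg]
    rw [hσ, ContinuousAlgEquiv.refl_apply, abs_of_pos hg]
    rw [show (-(2 : ℤ)) = -((2 : ℕ) : ℤ) by norm_num, zpow_neg, zpow_natCast]
    simp only [show (2 : ℤ) - 1 = 1 by norm_num, zpow_one]
    rw [div_eq_mul_inv, mul_assoc]
  rw [hval]
  refine h3.congr_of_eventuallyEq ?_
  filter_upwards with w
  simp only [Function.comp_apply]
  rw [ofComplex_apply]

lemma FA_S23_isPrim_sum {I : Type*} (s : Finset I) {f F : I → ℍ → ℂ}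
    (h : ∀ i ∈ s, FA_S21_IsPrim (f i) (F i)) :
    FA_S21_IsPrim (∑ i ∈ s, f i) (∑ i ∈ s, F i) := by
  classical
  induction s using Finset.induction_on with
  | empty =>
    intro τ
    simp only [Finset.sum_empty]
    have : ((0 : ℍ → ℂ) ∘ ofComplex) = fun _ => (0 : ℂ) := by funext; rfl
    rw [this]
    exact hasDerivAt_const _ _
  | insert a s ha ih =>
    rw [Finset.sum_insert ha, Finset.sum_insert ha]
    exact (h a (Finset.mem_insert_self a s)).add
      (ih fun i hi => h i (Finset.mem_insert_of_mem hi))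

/-- the period computed from any primitive -/
theorem FA_S23_period_of_isPrim (N : ℕ) [NeZero N] (f : CuspForm (Gamma0 N) 2) {F : ℍ → ℂ}
    (hF : FA_S21_IsPrim f F) (γ : Gamma0 N) (z : ℍ) :
    periodMap N f (Additive.ofMul γ) = F ((γ : SL(2, ℤ)) • z) - F z := by
  rw [FA_S21_periodMap_apply' N f γ z]
  have := (FA_S21_prim_isPrim N f).sub_const_of_eq hF ((γ : SL(2, ℤ)) • z) z
  linear_combination this

section hecke

variable (N : ℕ) [NeZero N] {I : Type} [Fintype I] (α : I → GL (Fin 2) ℝ)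
  (hex : ∀ i (γ : ↥(Gamma0 N)), ∃ j, ∃ γ' : ↥(Gamma0 N),
      α i * FA_S22_phi N γ = FA_S22_phi N γ' * α j)
  (huniq : ∀ i j (γ : ↥(Gamma0 N)), α i = FA_S22_phi N γ * α j → i = j)

/-- the action on functions on the upper half plane -/
noncomputable def FA_S23_actM (g : GL (Fin 2) ℝ) : (ℍ → ℂ) →+ (ℍ → ℂ) where
  toFun E := fun τ => E (g • τ)
  map_zero' := rfl
  map_add' _ _ := rfl

/-- constants -/
def FA_S23_const : ℂ →+ (ℍ → ℂ) where
  toFun v := fun _ => v
  map_zero' := rfl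
  map_add' _ _ := rfl

include huniq in
/-- Hecke equivariance of the period map -/
theorem FA_S23_period_hecke (hdet : ∀ i, (0 : ℝ) < (α i).det.val)
    (f g : CuspForm (Gamma0 N) 2) (hg : (⇑g : ℍ → ℂ) = ∑ i, (⇑f : ℍ → ℂ) ∣[(2 : ℤ)] α i)
    (γ : Gamma0 N) :
    periodMap N g (Additive.ofMul γ) =
      FA_S22_heckeCoc (FA_S22_phi N) α hex (FA_S23_triv (GL (Fin 2) ℝ))
        (fun γ => periodMap N f (Additive.ofMul γ)) γ := by
  have hF := FA_S21_prim_isPrim N f
  have hE : FA_S21_IsPrim (⇑g) (∑ i, fun τ => FA_S21_prim N f (α i • τ)) := by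
    rw [hg]
    exact FA_S23_isPrim_sum Finset.univ fun i _ => FA_S23_isPrim_slash hF (α i) (hdet i)
  rw [FA_S23_period_of_isPrim N g hE γ UpperHalfPlane.I]
  have key := FA_S22_heckeCoc_equivariant (FA_S22_phi N) α hex (FA_S23_triv (GL (Fin 2) ℝ))
    (FA_S22_phi_injective N) huniq FA_S23_actM
    (fun g h x => by
      funext τ
      show x ((g * h) • τ) = x (g • (h • τ))
      rw [mul_smul]) FA_S23_const
    (fun g v => rfl) (FA_S21_prim N f) (fun γ => periodMap N f (Additive.ofMul γ))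
    (fun γ => by
      funext τ
      show FA_S21_prim N f (FA_S22_phi N γ • τ) - FA_S21_prim N f τ = _
      rw [FA_S21_periodMap_apply' N f γ τ]
      rfl) γ
  have key2 := congrFun key UpperHalfPlane.I
  exact key2

end hecke

end FA_S23
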