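import Fermat.Agent.S23.Hecke

/-!
# S23, part C: Hecke operators on `Hom(Γ₀(N), ℂ)` and the period pairing
-/

set_option autoImplicit false

namespace FA_S23

open FA_S22 FA_S21 UpperHalfPlane Matrix.SpecialLinearGroup CongruenceSubgroup ModularGroup
open ModularCurve ModularCurve.Period
open P2MW.S_ModularForm_heckeT_slash_eq_self_of_mem_Gamma0.ModularForm.HeckeSlashInvariance
open scoped ModularForm MatrixGroups Manifold

section heckeHom

variable (N : ℕ) [NeZero N] {I : Type} [Fintype I] (α : I → GL (Fin 2) ℝ)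
  (hex : ∀ i (γ : ↥(Gamma0 N)), ∃ j, ∃ γ' : ↥(Gamma0 N),
      α i * FA_S22_phi N γ = FA_S22_phi N γ' * α j)
  (huniq : ∀ i j (γ : ↥(Gamma0 N)), α i = FA_S22_phi N γ * α j → i = j)

/-- the Hecke operator on a homomorphism, as a function -/
noncomputable def FA_S23_heckeFun (ψ : Additive (Gamma0 N) →+ ℂ) : ↥(Gamma0 N) → ℂ :=
  FA_S22_heckeCoc (FA_S22_phi N) α hex (FA_S23_triv (GL (Fin 2) ℝ))
    (fun γ => ψ (Additive.ofMul γ))

lemma FA_S23_heckeFun_apply (ψ : Additive (Gamma0 N) →+ ℂ) (γ : ↥(Gamma0 N)) :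
    FA_S23_heckeFun N α hex ψ γ =
      ∑ i, ψ (Additive.ofMul (FA_S22_tee (FA_S22_phi N) α hex γ i)) :=
  FA_S23_heckeCoc_triv_apply _ _ _ _ _

include huniq in
lemma FA_S23_heckeFun_mul (ψ : Additive (Gamma0 N) →+ ℂ) (γ δ : ↥(Gamma0 N)) :
    FA_S23_heckeFun N α hex ψ (γ * δ) =
      FA_S23_heckeFun N α hex ψ γ + FA_S23_heckeFun N α hex ψ δ := by
  have := FA_S22_heckeCoc_isCocycle (FA_S22_phi N) α hex (FA_S23_triv (GL (Fin 2) ℝ))
    (FA_S22_phi_injective N) huniq (fun _ _ _ => rfl) (fun γ => ψ (Additive.ofMul γ))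
    (fun γ δ => by
      show ψ (Additive.ofMul (γ * δ)) = ψ (Additive.ofMul γ) + ψ (Additive.ofMul δ)
      rw [ofMul_mul, map_add]) γ δ
  exact this

include huniq in
lemma FA_S23_heckeFun_one (ψ : Additive (Gamma0 N) →+ ℂ) :
    FA_S23_heckeFun N α hex ψ 1 = 0 := by
  have := FA_S23_heckeFun_mul N α hex huniq ψ 1 1
  rw [mul_one] at this
  linear_combination -this

/-- The Hecke operator on homomorphisms `Γ₀(N) → ℂ`. -/
noncomputable def FA_S23_heckeHom : Module.End ℂ (Additive (Gamma0 N) →+ ℂ) where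
  toFun ψ :=
    { toFun := fun γ => FA_S23_heckeFun N α hex ψ (Additive.toMul γ)
      map_zero' := FA_S23_heckeFun_one N α hex huniq ψ
      map_add' := fun γ δ => FA_S23_heckeFun_mul N α hex huniq ψ _ _ }
  map_add' ψ ψ' := by
    refine AddMonoidHom.ext fun γ => ?_
    show FA_S23_heckeFun N α hex (ψ + ψ') _ =
      FA_S23_heckeFun N α hex ψ _ + FA_S23_heckeFun N α hex ψ' _
    simp only [FA_S23_heckeFun_apply, AddMonoidHom.add_apply, Finset.sum_add_distrib]
  map_smul' z ψ := by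
    refine AddMonoidHom.ext fun γ => ?_
    show FA_S23_heckeFun N α hex (z • ψ) _ = z • FA_S23_heckeFun N α hex ψ _
    simp only [FA_S23_heckeFun_apply, AddMonoidHom.smul_apply, Finset.smul_sum]

lemma FA_S23_heckeHom_apply (ψ : Additive (Gamma0 N) →+ ℂ) (γ : ↥(Gamma0 N)) :
    FA_S23_heckeHom N α hex huniq ψ (Additive.ofMul γ) =
      ∑ i, ψ (Additive.ofMul (FA_S22_tee (FA_S22_phi N) α hex γ i)) :=
  FA_S23_heckeFun_apply N α hex ψ γ

/-- integrality -/
lemma FA_S23_heckeHom_int (ψ : Additive (Gamma0 N) →+ ℂ)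
    (hψ : ∀ γ : ↥(Gamma0 N), ∃ n : ℤ, ψ (Additive.ofMul γ) = n) (γ : ↥(Gamma0 N)) :
    ∃ n : ℤ, FA_S23_heckeHom N α hex huniq ψ (Additive.ofMul γ) = n := by
  rw [FA_S23_heckeHom_apply]
  choose n hn using hψ
  refine ⟨∑ i, n (FA_S22_tee (FA_S22_phi N) α hex γ i), ?_⟩
  push_cast
  exact Finset.sum_congr rfl fun i _ => hn _

/-- Hecke equivariance of the period map -/
theorem FA_S23_periodMap_hecke (hdet : ∀ i, (0 : ℝ) < (α i).det.val)
    (f g : CuspForm (Gamma0 N) 2) (hg : (⇑g : ℍ → ℂ) = ∑ i, (⇑f : ℍ → ℂ) ∣[(2 : ℤ)] α i) :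
    periodMap N g = FA_S23_heckeHom N α hex huniq (periodMap N f) := by
  refine AddMonoidHom.ext fun γ => ?_
  obtain ⟨γ, rfl⟩ := Additive.ofMul.surjective γ
  exact FA_S23_period_hecke N α hex huniq hdet f g hg γ

/-- commutation with the involution -/
theorem FA_S23_heckeHom_charInvolution
    (π : I → I) (hπ : Function.Bijective π) (τ : I → ↥(Gamma0 N))
    (hα : ∀ i, FA_S23_theta (α i) = FA_S22_phi N (τ i) * α (π i))
    (ψ : Additive (Gamma0 N) →+ ℂ) :
    FA_S23_heckeHom N α hex huniq (charInvolution N ℂ ℂ ψ) =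
      charInvolution N ℂ ℂ (FA_S23_heckeHom N α hex huniq ψ) := by
  refine AddMonoidHom.ext fun γ => ?_
  obtain ⟨γ, rfl⟩ := Additive.ofMul.surjective γ
  have := FA_S23_heckeCoc_conj (FA_S22_phi N) α hex (FA_S22_phi_injective N) huniq
    FA_S23_theta (jConjGamma0 N) (FA_S23_theta_phi N) π hπ τ hα
    (fun γ => ψ (Additive.ofMul γ))
    (fun γ δ => by
      show ψ (Additive.ofMul (γ * δ)) = ψ (Additive.ofMul γ) + ψ (Additive.ofMul δ)
      rw [ofMul_mul, map_add]) γ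
  exact this

/-- Hecke equivariance of the period pairing -/
theorem FA_S23_periodHomPair_hecke (hdet : ∀ i, (0 : ℝ) < (α i).det.val)
    (π : I → I) (hπ : Function.Bijective π) (τ : I → ↥(Gamma0 N))
    (hα : ∀ i, FA_S23_theta (α i) = FA_S22_phi N (τ i) * α (π i))
    (T : Module.End ℂ (CuspForm (Gamma0 N) 2))
    (hT : ∀ f : CuspForm (Gamma0 N) 2, (⇑(T f) : ℍ → ℂ) = ∑ i, (⇑f : ℍ → ℂ) ∣[(2 : ℤ)] α i)
    (f g : CuspForm (Gamma0 N) 2) :
    periodHomPair N (T f, T g) = FA_S23_heckeHom N α hex huniq (periodHomPair N (f, g)) := by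
  rw [FA_S21_periodHomPair_apply, FA_S21_periodHomPair_apply,
    FA_S23_periodMap_hecke N α hex huniq hdet f (T f) (hT f),
    FA_S23_periodMap_hecke N α hex huniq hdet g (T g) (hT g)]
  simp only [map_add, map_sub, FA_S23_heckeHom_charInvolution N α hex huniq π hπ τ hα]

end heckeHom

end FA_S23
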