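import Fermat.Agent.S22.HeckeCocycle

/-!
# S23, part C: Hecke operators on homomorphisms commute with an involution (abstract)
-/

set_option autoImplicit false

namespace FA_S23

open FA_S22

section

variable {G Γ I : Type*} [Group G] [Group Γ] [Fintype I]
  (φ : Γ →* G) (α : I → G)
  (hex : ∀ i (γ : Γ), ∃ j, ∃ γ' : Γ, α i * φ γ = φ γ' * α j)

/-- the trivial action on `ℂ` -/
def FA_S23_triv (G : Type*) : G → ℂ →+ ℂ := fun _ => AddMonoidHom.id ℂ

lemma FA_S23_heckeCoc_triv_apply (c : Γ → ℂ) (γ : Γ) :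
    FA_S22_heckeCoc φ α hex (FA_S23_triv G) c γ = ∑ i, c (FA_S22_tee φ α hex γ i) := by
  rw [FA_S22_heckeCoc_apply]
  rfl

theorem FA_S23_heckeCoc_conj
    (hφ : Function.Injective φ) (huniq : ∀ i j (γ : Γ), α i = φ γ * α j → i = j)
    (θ : G →* G) (θΓ : Γ →* Γ) (hθ : ∀ γ, φ (θΓ γ) = θ (φ γ))
    (π : I → I) (hπ : Function.Bijective π) (τ : I → Γ)
    (hα : ∀ i, θ (α i) = φ (τ i) * α (π i))
    (c : Γ → ℂ) (hc : ∀ γ δ, c (γ * δ) = c γ + c δ) (γ : Γ) :
    FA_S22_heckeCoc φ α hex (FA_S23_triv G) (fun γ => c (θΓ γ)) γ =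
      FA_S22_heckeCoc φ α hex (FA_S23_triv G) c (θΓ γ) := by
  have hc1 : c 1 = 0 := by
    have := hc 1 1
    rw [mul_one] at this
    linear_combination -this
  have hcinv : ∀ a, c a⁻¹ = -c a := by
    intro a
    have := hc a a⁻¹
    rw [mul_inv_cancel, hc1] at this
    linear_combination -this
  rw [FA_S23_heckeCoc_triv_apply, FA_S23_heckeCoc_triv_apply]
  -- the key identity
  have key : ∀ i, FA_S22_sigma φ α hex (θΓ γ) (π i) = π (FA_S22_sigma φ α hex γ i) ∧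
      FA_S22_tee φ α hex (θΓ γ) (π i) =
        (τ i)⁻¹ * θΓ (FA_S22_tee φ α hex γ i) * τ (FA_S22_sigma φ α hex γ i) := by
    intro i
    apply FA_S22_sigma_tee_unique φ α hex hφ huniq
    have h1 := congrArg θ (FA_S22_sigma_tee_spec φ α hex γ i)
    rw [map_mul, map_mul, hα, hα, ← hθ, ← hθ] at h1
    -- `φ (τ i) * α (π i) * φ (θΓ γ) = φ (θΓ t) * (φ (τ σ) * α (π σ))`
    rw [map_mul, map_mul, map_inv]
    have h2 : α (π i) * φ (θΓ γ) = (φ (τ i))⁻¹ * (φ (τ i) * α (π i) * φ (θΓ γ)) := by group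
    rw [h2, h1]
    group
  rw [← Fintype.sum_bijective π hπ (fun i => c (FA_S22_tee φ α hex (θΓ γ) (π i)))
    (fun i => c (FA_S22_tee φ α hex (θΓ γ) i)) (fun _ => rfl)]
  have h3 : ∀ i, c (FA_S22_tee φ α hex (θΓ γ) (π i)) =
      c (θΓ (FA_S22_tee φ α hex γ i)) + (c (τ (FA_S22_sigma φ α hex γ i)) - c (τ i)) := by
    intro i
    rw [(key i).2, hc, hc, hcinv]
    ring
  simp only [h3]
  rw [Finset.sum_add_distrib, Finset.sum_sub_distrib,
    FA_S22_sum_sigma φ α hex hφ huniq γ (fun j => c (τ j)), sub_self, add_zero]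

end

end FA_S23
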